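import Fermat.Agent.S24.M7.H347Rotation

/-!
# S24 / M7a (helper347): bridge between Taylor coefficients, analytic order and the
trailing coefficient; order / leading coefficient of `HahnSeries.ofPowerSeries`.

* `iteratedDeriv_eq_factorial_mul_of_eventuallyEq` : if `F z = (z - x) ^ n * u z` near `x` with `u`
  analytic at `x`, then `F⁽ⁿ⁾(x) = n! * u x`.
* `meromorphicTrailingCoeffAt_eq_iteratedDeriv_div` : for `F` analytic at `x` of order `n`, the
  trailing coefficient is the `n`-th Taylor coefficient `F⁽ⁿ⁾(x) / n!`.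
* `order_ofPowerSeries_of_coeff`, `leadingCoeff_ofPowerSeries_of_coeff` : order and leading
  coefficient of the Laurent series attached to a power series.
-/

set_option autoImplicit false

open Filter Topology

namespace Fermat.Agent.S24.M7.H347

/-- If `F z = (z - x) ^ n * u z` near `x` with `u` analytic at `x`, then the `n`-th derivative
of `F` at `x` is `n! * u x`. -/
theorem iteratedDeriv_eq_factorial_mul_of_eventuallyEq (x : ℂ) :
    ∀ (n : ℕ) (F u : ℂ → ℂ), AnalyticAt ℂ u x →
      (∀ᶠ z in 𝓝 x, F z = (z - x) ^ n * u z) →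
      iteratedDeriv n F x = (n.factorial : ℂ) * u x := by
  intro n
  induction n with
  | zero =>
    intro F u _ h
    have := h.self_of_nhds
    simpa using this
  | succ n ih =>
    intro F u hu h
    rw [iteratedDeriv_succ']
    -- the derivative of `F` near `x`
    set v : ℂ → ℂ := fun z => ((n : ℂ) + 1) * u z + (z - x) * deriv u z with hv
    have hvan : AnalyticAt ℂ v x := by
      have h1 : AnalyticAt ℂ (deriv u) x := hu.deriv
      have h2 : AnalyticAt ℂ (fun z : ℂ => z - x) x := by fun_prop
      exact (analyticAt_const.mul hu).add (h2.mul h1)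
    have hderiv : ∀ᶠ z in 𝓝 x, deriv F z = (z - x) ^ n * v z := by
      have hFG : F =ᶠ[𝓝 x] fun z => (z - x) ^ (n + 1) * u z := h
      have h1 : ∀ᶠ z in 𝓝 x, F =ᶠ[𝓝 z] fun w => (w - x) ^ (n + 1) * u w :=
        hFG.eventually_nhds
      have h2 : ∀ᶠ z in 𝓝 x, AnalyticAt ℂ u z := hu.eventually_analyticAt
      filter_upwards [h1, h2] with z hz1 hz2
      rw [hz1.deriv_eq]
      have hd1 : HasDerivAt (fun w : ℂ => (w - x) ^ (n + 1))
          (((n + 1 : ℕ) : ℂ) * (z - x) ^ n * 1) z := by
        have h3 : HasDerivAt (fun w : ℂ => w - x) 1 z := (hasDerivAt_id z).sub_const x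
        have h4 := h3.fun_pow (n + 1)
        simpa using h4
      have hd2 : HasDerivAt u (deriv u z) z := hz2.differentiableAt.hasDerivAt
      have hmul : HasDerivAt (fun w : ℂ => (w - x) ^ (n + 1) * u w)
          (((n + 1 : ℕ) : ℂ) * (z - x) ^ n * 1 * u z + (z - x) ^ (n + 1) * deriv u z) z :=
        hd1.mul hd2
      rw [hmul.deriv, hv]
      push_cast
      ring
    rw [ih (deriv F) v hvan hderiv, hv]
    simp only [sub_self, zero_mul, add_zero]
    rw [Nat.factorial_succ]
    push_cast
    ring

/-- For `F` analytic at `x` of (finite) order `n`, the trailing coefficient of `F` at `x` is the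
`n`-th Taylor coefficient. -/
theorem meromorphicTrailingCoeffAt_eq_iteratedDeriv_div {F : ℂ → ℂ} {x : ℂ}
    (hF : AnalyticAt ℂ F x) {n : ℕ} (hn : analyticOrderAt F x = n) :
    meromorphicTrailingCoeffAt F x = iteratedDeriv n F x / (n.factorial : ℂ) := by
  obtain ⟨u, hu, hu0, hFu⟩ := hF.analyticOrderAt_eq_natCast.mp hn
  have h1 : meromorphicTrailingCoeffAt F x = u x := by
    refine hu.meromorphicTrailingCoeffAt_of_ne_zero_of_eq_nhdsNE (n := (n : ℤ)) hu0 ?_
    filter_upwards [hFu.filter_mono nhdsWithin_le_nhds] with z hz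
    rw [hz, zpow_natCast]
  have h2 : iteratedDeriv n F x = (n.factorial : ℂ) * u x :=
    iteratedDeriv_eq_factorial_mul_of_eventuallyEq x n F u hu (by simpa [smul_eq_mul] using hFu)
  have hfac : (n.factorial : ℂ) ≠ 0 := by exact_mod_cast (Nat.factorial_pos n).ne'
  rw [h1, h2]
  field_simp

section HahnSeries

variable {C : Type*} [Semiring C]

/-- Coefficients of `ofPowerSeries` at negative indices vanish. -/
theorem coeff_ofPowerSeries_of_neg (P : PowerSeries C) {m : ℤ} (hm : m < 0) :
    (HahnSeries.ofPowerSeries ℤ C P).coeff m = 0 := by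
  rw [HahnSeries.ofPowerSeries_apply]
  apply HahnSeries.embDomain_of_notMem_range
  rintro ⟨k, hk⟩
  have : (k : ℤ) = m := hk
  omega

theorem coeff_ofPowerSeries_natCast (P : PowerSeries C) (k : ℕ) :
    (HahnSeries.ofPowerSeries ℤ C P).coeff (k : ℤ) = PowerSeries.coeff k P :=
  HahnSeries.ofPowerSeries_apply_coeff P k

/-- Order of the Laurent series of a power series whose first nonzero coefficient is the
`n`-th. -/
theorem order_ofPowerSeries_of_coeff (P : PowerSeries C) {n : ℕ}
    (h0 : ∀ i < n, PowerSeries.coeff i P = 0) (hn : PowerSeries.coeff n P ≠ 0) :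
    (HahnSeries.ofPowerSeries ℤ C P).order = (n : ℤ) := by
  set x := HahnSeries.ofPowerSeries ℤ C P with hx
  have hxn : x.coeff (n : ℤ) ≠ 0 := by rw [hx, coeff_ofPowerSeries_natCast]; exact hn
  have hx0 : x ≠ 0 := HahnSeries.ne_zero_of_coeff_ne_zero hxn
  apply le_antisymm (HahnSeries.order_le_of_coeff_ne_zero hxn)
  by_contra hlt
  rw [not_le] at hlt
  have hc : x.coeff x.order ≠ 0 := fun h => hx0 (HahnSeries.coeff_order_eq_zero.mp h)
  rcases lt_or_ge x.order 0 with hneg | hpos
  · exact hc (coeff_ofPowerSeries_of_neg P hneg)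
  · obtain ⟨k, hk⟩ := Int.eq_ofNat_of_zero_le hpos
    rw [hk] at hc hlt
    rw [hx, coeff_ofPowerSeries_natCast] at hc
    exact hc (h0 k (by exact_mod_cast hlt))

theorem leadingCoeff_ofPowerSeries_of_coeff (P : PowerSeries C) {n : ℕ}
    (h0 : ∀ i < n, PowerSeries.coeff i P = 0) (hn : PowerSeries.coeff n P ≠ 0) :
    (HahnSeries.ofPowerSeries ℤ C P).leadingCoeff = PowerSeries.coeff n P := by
  rw [HahnSeries.leadingCoeff_eq, order_ofPowerSeries_of_coeff P h0 hn,
    coeff_ofPowerSeries_natCast]

end HahnSeries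

end Fermat.Agent.S24.M7.H347
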