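import Fermat.Agent.S24.M7.H347Rotation

/-!
# S24 / M7a (helper347): Möbius maps of `SL(2,ℤ)` as analytic maps `ℂ → ℂ`, and the
rotation lemma for functions on the upper half plane.

Main statements (`F : ℍ → ℂ` arbitrary, `g : SL(2,ℤ)`, `τ : ℍ`):

* `meromorphicOrderAt_smul_comp` :
  `ord_τ (F (g • ·)) = ord_{g • τ} F`
* `meromorphicOrderAt_smul_comp_of_fixed`, `meromorphicTrailingCoeffAt_smul_comp_of_fixed` :
  if `g • τ = τ` then the order at `τ` of `F (g • ·)` equals that of `F`, and the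
  trailing coefficient is multiplied by `((denom g τ) ^ (-2)) ^ order`.

All orders/trailing coefficients are those of the functions `ℂ → ℂ` obtained by precomposing with
`UpperHalfPlane.ofComplex` (the convention used by Mathlib for modular forms).
-/

set_option autoImplicit false

open Filter Topology UpperHalfPlane
open scoped MatrixGroups

namespace Fermat.Agent.S24.M7.H347

/-- The Möbius transformation attached to `g ∈ SL(2,ℤ)` as a function `ℂ → ℂ`. -/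
noncomputable def moeb (g : SL(2, ℤ)) (z : ℂ) : ℂ :=
  ((g 0 0 : ℂ) * z + (g 0 1 : ℂ)) / ((g 1 0 : ℂ) * z + (g 1 1 : ℂ))

theorem coe_smul_eq_moeb (g : SL(2, ℤ)) (τ : ℍ) : ((g • τ : ℍ) : ℂ) = moeb g τ := by
  rw [coe_specialLinearGroup_apply]
  simp [moeb]

theorem denom_eq (g : SL(2, ℤ)) (z : ℂ) :
    denom (g : GL (Fin 2) ℝ) z = (g 1 0 : ℂ) * z + (g 1 1 : ℂ) := by
  simp [denom]

theorem denom_ne_zero_of_im_pos (g : SL(2, ℤ)) {z : ℂ} (hz : 0 < z.im) :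
    (g 1 0 : ℂ) * z + (g 1 1 : ℂ) ≠ 0 := by
  rw [← denom_eq]
  exact denom_ne_zero_of_im _ hz.ne'

theorem hasDerivAt_moeb (g : SL(2, ℤ)) {z : ℂ} (hz : 0 < z.im) :
    HasDerivAt (moeb g) (((g 1 0 : ℂ) * z + (g 1 1 : ℂ)) ^ (-2 : ℤ)) z := by
  have hne := denom_ne_zero_of_im_pos g hz
  have hnum : HasDerivAt (fun w : ℂ => (g 0 0 : ℂ) * w + (g 0 1 : ℂ)) (g 0 0 : ℂ) z := by
    simpa using ((hasDerivAt_id z).const_mul (g 0 0 : ℂ)).add_const (g 0 1 : ℂ)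
  have hden : HasDerivAt (fun w : ℂ => (g 1 0 : ℂ) * w + (g 1 1 : ℂ)) (g 1 0 : ℂ) z := by
    simpa using ((hasDerivAt_id z).const_mul (g 1 0 : ℂ)).add_const (g 1 1 : ℂ)
  have h := hnum.div hden hne
  have hdet : (g 0 0 : ℂ) * (g 1 1 : ℂ) - (g 0 1 : ℂ) * (g 1 0 : ℂ) = 1 := by
    have := g.det_coe
    rw [Matrix.det_fin_two] at this
    exact_mod_cast this
  have h2 : HasDerivAt (moeb g)
      (((g 0 0 : ℂ) * ((g 1 0 : ℂ) * z + (g 1 1 : ℂ)) -
          ((g 0 0 : ℂ) * z + (g 0 1 : ℂ)) * (g 1 0 : ℂ)) /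
        ((g 1 0 : ℂ) * z + (g 1 1 : ℂ)) ^ 2) z := h
  refine h2.congr_deriv ?_
  have e : ((g 1 0 : ℂ) * z + (g 1 1 : ℂ)) ^ (-2 : ℤ) =
      (((g 1 0 : ℂ) * z + (g 1 1 : ℂ)) ^ 2)⁻¹ := by
    rw [zpow_neg]; norm_cast
  have hA : (g 0 0 : ℂ) * ((g 1 0 : ℂ) * z + (g 1 1 : ℂ)) -
      ((g 0 0 : ℂ) * z + (g 0 1 : ℂ)) * (g 1 0 : ℂ) = 1 := by
    linear_combination hdet
  rw [hA, e, one_div]

theorem analyticAt_moeb (g : SL(2, ℤ)) {z : ℂ} (hz : 0 < z.im) : AnalyticAt ℂ (moeb g) z := by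
  have hne := denom_ne_zero_of_im_pos g hz
  unfold moeb
  fun_prop (disch := exact hne)

theorem deriv_moeb (g : SL(2, ℤ)) {z : ℂ} (hz : 0 < z.im) :
    deriv (moeb g) z = ((g 1 0 : ℂ) * z + (g 1 1 : ℂ)) ^ (-2 : ℤ) :=
  (hasDerivAt_moeb g hz).deriv

theorem deriv_moeb_ne_zero (g : SL(2, ℤ)) {z : ℂ} (hz : 0 < z.im) : deriv (moeb g) z ≠ 0 := by
  rw [deriv_moeb g hz]
  exact zpow_ne_zero _ (denom_ne_zero_of_im_pos g hz)

theorem deriv_moeb_coe (g : SL(2, ℤ)) (τ : ℍ) :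
    deriv (moeb g) (τ : ℂ) = denom (g : GL (Fin 2) ℝ) τ ^ (-2 : ℤ) := by
  rw [deriv_moeb g τ.im_pos, denom_eq]

/-- Near a point of the upper half plane, `F (g • ·)` is `F ∘ moeb g`
(both transported to `ℂ` along `ofComplex`). -/
theorem smul_comp_ofComplex_eventuallyEq (F : ℍ → ℂ) (g : SL(2, ℤ)) (τ : ℍ) :
    ((fun σ : ℍ => F (g • σ)) ∘ ofComplex) =ᶠ[𝓝 (τ : ℂ)] (F ∘ ofComplex) ∘ moeb g := by
  have hopen : IsOpen {z : ℂ | 0 < z.im} := isOpen_lt continuous_const Complex.continuous_im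
  filter_upwards [hopen.mem_nhds τ.im_pos] with z hz
  simp only [Function.comp_apply]
  have h1 : ofComplex z = ⟨z, hz⟩ := ofComplex_apply_of_im_pos hz
  rw [h1]
  have h2 : moeb g z = ((g • (⟨z, hz⟩ : ℍ) : ℍ) : ℂ) := (coe_smul_eq_moeb g ⟨z, hz⟩).symm
  rw [h2, ofComplex_apply]

/-- The order of `F (g • ·)` at `τ` is the order of `F` at `g • τ`. -/
theorem meromorphicOrderAt_smul_comp (F : ℍ → ℂ) (g : SL(2, ℤ)) (τ : ℍ) :
    meromorphicOrderAt ((fun σ : ℍ => F (g • σ)) ∘ ofComplex) (τ : ℂ) =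
      meromorphicOrderAt (F ∘ ofComplex) ((g • τ : ℍ) : ℂ) := by
  rw [meromorphicOrderAt_congr ((smul_comp_ofComplex_eventuallyEq F g τ).filter_mono
      nhdsWithin_le_nhds),
    meromorphicOrderAt_comp_of_deriv_ne_zero (analyticAt_moeb g τ.im_pos)
      (deriv_moeb_ne_zero g τ.im_pos), coe_smul_eq_moeb]

/-- **Rotation lemma, order part.** -/
theorem meromorphicOrderAt_smul_comp_of_fixed (F : ℍ → ℂ) {g : SL(2, ℤ)} {τ : ℍ}
    (hfix : g • τ = τ) :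
    meromorphicOrderAt ((fun σ : ℍ => F (g • σ)) ∘ ofComplex) (τ : ℂ) =
      meromorphicOrderAt (F ∘ ofComplex) (τ : ℂ) := by
  rw [meromorphicOrderAt_smul_comp, hfix]

/-- **Rotation lemma, leading coefficient part.** If `g • τ = τ` then the trailing coefficient
at `τ` of `F (g • ·)` is `ζ ^ ord` times that of `F`, where `ζ = (denom g τ) ^ (-2)` is the
derivative of the Möbius map at its fixed point. -/
theorem meromorphicTrailingCoeffAt_smul_comp_of_fixed (F : ℍ → ℂ) {g : SL(2, ℤ)} {τ : ℍ}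
    (hfix : g • τ = τ) :
    meromorphicTrailingCoeffAt ((fun σ : ℍ => F (g • σ)) ∘ ofComplex) (τ : ℂ) =
      (denom (g : GL (Fin 2) ℝ) τ ^ (-2 : ℤ)) ^
          (meromorphicOrderAt (F ∘ ofComplex) (τ : ℂ)).untop₀ *
        meromorphicTrailingCoeffAt (F ∘ ofComplex) (τ : ℂ) := by
  have hfix' : moeb g (τ : ℂ) = τ := by rw [← coe_smul_eq_moeb, hfix]
  rw [meromorphicTrailingCoeffAt_congr_nhdsNE
      ((smul_comp_ofComplex_eventuallyEq F g τ).filter_mono nhdsWithin_le_nhds),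
    meromorphicTrailingCoeffAt_comp_of_fixed (analyticAt_moeb g τ.im_pos) hfix'
      (deriv_moeb_ne_zero g τ.im_pos), deriv_moeb_coe]

end Fermat.Agent.S24.M7.H347
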