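import Fermat.Agent.S24.H624.Taylor
import Fermat.Agent.S24.H624.SL2Z
import Fermat.Agent.S24.M7.H347Moebius
import Fermat.Agent.S24.M7.H347Bridge

/-!
# S24 / M7a (helper347): adapter from the analytic rotation lemma to the `LocalData` fields
`σ_perm_order` / `σ_perm_leadingCoeff`.

* `laurentAt τ : holoRing →+* LaurentSeries ℂ` — Laurent (= Taylor) expansion at `τ`
  (`ofPowerSeries ∘ H624.taylorAt τ`), injective, with
  `order_laurentAt`, `leadingCoeff_laurentAt`.
* `order_laurentAt_precompSL`, `leadingCoeff_laurentAt_precompSL` — the rotation lemma for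
  `laurentAt`: if `γ • τ = τ` then precomposition with `γ` preserves the order and multiplies
  the leading coefficient by `ζ ^ order`, `ζ = (denom γ τ) ^ (-2)`.
* `order_leadingCoeff_of_isFractionRing` — pure algebra: such a rule extends from a ring `R`
  to its fraction field.
* `localData_perm_fields` — the combination, in exactly the shape of the `LocalData` fields.
-/

set_option autoImplicit false

open Filter Topology UpperHalfPlane
open scoped MatrixGroups

namespace Fermat.Agent.S24.M7.H347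

open Fermat.Agent.S24.H624

/-- Laurent expansion at `τ` of a holomorphic function on `ℍ` (coordinate `z - τ`). -/
noncomputable def laurentAt (τ : ℍ) : holoRing →+* LaurentSeries ℂ :=
  (HahnSeries.ofPowerSeries ℤ ℂ).comp (taylorAt τ).toRingHom

theorem laurentAt_apply (τ : ℍ) (f : holoRing) :
    laurentAt τ f = HahnSeries.ofPowerSeries ℤ ℂ (taylorAt τ f) := rfl

theorem laurentAt_injective (τ : ℍ) : Function.Injective (laurentAt τ) :=
  HahnSeries.ofPowerSeries_injective.comp (taylorAt_injective τ)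

theorem laurentAt_algebraMap (τ : ℍ) (c : ℂ) :
    laurentAt τ (algebraMap ℂ holoRing c) = HahnSeries.C c := by
  rw [laurentAt_apply, AlgHom.commutes, PowerSeries.algebraMap_apply, Algebra.algebraMap_self,
    RingHom.id_apply, HahnSeries.ofPowerSeries_C]

theorem ordAt_ne_top_of_ne_zero {f : holoRing} (hf : f ≠ 0) (τ : ℍ) :
    ordAt τ (f : ℍ → ℂ) ≠ ⊤ :=
  ordAt_ne_top f.2 (fun h => hf (Subtype.ext h)) τ

/-- Vanishing/nonvanishing of the Taylor coefficients of a nonzero holomorphic function. -/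
theorem coeff_taylorAt_of_ne_zero {f : holoRing} (hf : f ≠ 0) (τ : ℍ) :
    (∀ i < (ordAt τ (f : ℍ → ℂ)).toNat, PowerSeries.coeff i (taylorAt τ f) = 0) ∧
      PowerSeries.coeff (ordAt τ (f : ℍ → ℂ)).toNat (taylorAt τ f) ≠ 0 := by
  have hne := ordAt_ne_top_of_ne_zero hf τ
  have h1 : (taylorAt τ f).order = ((ordAt τ (f : ℍ → ℂ)).toNat : ℕ∞) := by
    rw [order_taylorAt, ENat.natCast_toNat hne]
  have h2 := (PowerSeries.order_eq_nat).mp h1
  exact ⟨h2.2, h2.1⟩

theorem order_laurentAt (τ : ℍ) (f : holoRing) :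
    (laurentAt τ f).order = ((ordAt τ (f : ℍ → ℂ)).toNat : ℤ) := by
  by_cases hf : f = 0
  · subst hf
    have : ordAt τ ((0 : holoRing) : ℍ → ℂ) = ⊤ := ordAt_zero τ
    rw [map_zero, HahnSeries.order_zero, this]
    simp
  · obtain ⟨h0, hn⟩ := coeff_taylorAt_of_ne_zero hf τ
    rw [laurentAt_apply]
    exact order_ofPowerSeries_of_coeff _ h0 hn

theorem leadingCoeff_laurentAt (τ : ℍ) (f : holoRing) :
    (laurentAt τ f).leadingCoeff =
      meromorphicTrailingCoeffAt ((f : ℍ → ℂ) ∘ ofComplex) (τ : ℂ) := by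
  by_cases hf : f = 0
  · subst hf
    rw [map_zero, HahnSeries.leadingCoeff_zero]
    have h0 : (((0 : holoRing) : ℍ → ℂ) ∘ ofComplex) = fun _ => (0 : ℂ) := rfl
    rw [h0, meromorphicTrailingCoeffAt_const]
  · obtain ⟨h0, hn⟩ := coeff_taylorAt_of_ne_zero hf τ
    have hne := ordAt_ne_top_of_ne_zero hf τ
    rw [laurentAt_apply, leadingCoeff_ofPowerSeries_of_coeff _ h0 hn, coeff_taylorAt]
    have han : AnalyticAt ℂ ((f : ℍ → ℂ) ∘ ofComplex) (τ : ℂ) := analyticAt_of_mdiff f.2 τ
    have hord : analyticOrderAt ((f : ℍ → ℂ) ∘ ofComplex) (τ : ℂ) =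
        ((ordAt τ (f : ℍ → ℂ)).toNat : ℕ∞) := by
      rw [← ordAt_def, ENat.natCast_toNat hne]
    rw [meromorphicTrailingCoeffAt_eq_iteratedDeriv_div han hord]
    rfl

theorem untop₀_meromorphicOrderAt (τ : ℍ) (f : holoRing) :
    (meromorphicOrderAt ((f : ℍ → ℂ) ∘ ofComplex) (τ : ℂ)).untop₀ = (laurentAt τ f).order := by
  have han : AnalyticAt ℂ ((f : ℍ → ℂ) ∘ ofComplex) (τ : ℂ) := analyticAt_of_mdiff f.2 τ
  rw [order_laurentAt, han.meromorphicOrderAt_eq, ← ordAt_def]
  by_cases h : ordAt τ (f : ℍ → ℂ) = ⊤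
  · rw [h]; simp
  · obtain ⟨n, hn⟩ := ENat.ne_top_iff_exists.mp h
    rw [← hn]; simp

/-- **Rotation lemma for `laurentAt`, order part.** -/
theorem order_laurentAt_precompSL {γ : SL(2, ℤ)} {τ : ℍ} (hfix : γ • τ = τ) (f : holoRing) :
    (laurentAt τ (precompSL γ f)).order = (laurentAt τ f).order := by
  rw [order_laurentAt, order_laurentAt, ordAt_precompSL, hfix]

/-- **Rotation lemma for `laurentAt`, leading coefficient part.** -/
theorem leadingCoeff_laurentAt_precompSL {γ : SL(2, ℤ)} {τ : ℍ} (hfix : γ • τ = τ)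
    (f : holoRing) :
    (laurentAt τ (precompSL γ f)).leadingCoeff =
      (denom (γ : GL (Fin 2) ℝ) τ ^ (-2 : ℤ)) ^ (laurentAt τ f).order *
        (laurentAt τ f).leadingCoeff := by
  rw [leadingCoeff_laurentAt, leadingCoeff_laurentAt, ← untop₀_meromorphicOrderAt]
  exact meromorphicTrailingCoeffAt_smul_comp_of_fixed (f : ℍ → ℂ) hfix

section Algebra

variable {R F C : Type*} [CommRing R] [Field F] [Field C] [Algebra R F] [IsFractionRing R F]

/-- Pure algebra: an "order is preserved, leading coefficient is multiplied by `ζ ^ order`" rule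
between two embeddings into Laurent series extends from a ring to its fraction field. -/
theorem order_leadingCoeff_of_isFractionRing (σ σ' : F →+* LaurentSeries C) {ζ : C}
    (hζ : ζ ≠ 0)
    (h : ∀ r : R, (σ' (algebraMap R F r)).order = (σ (algebraMap R F r)).order ∧
      (σ' (algebraMap R F r)).leadingCoeff =
        ζ ^ (σ (algebraMap R F r)).order * (σ (algebraMap R F r)).leadingCoeff) (f : F) :
    (σ' f).order = (σ f).order ∧
      (σ' f).leadingCoeff = ζ ^ (σ f).order * (σ f).leadingCoeff := by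
  by_cases hf : f = 0
  · subst hf; simp
  have : Nontrivial R := (algebraMap R F).domain_nontrivial
  obtain ⟨a, b, hb, hab⟩ := IsFractionRing.div_surjective (A := R) f
  have hb0 : algebraMap R F b ≠ 0 :=
    IsFractionRing.to_map_ne_zero_of_mem_nonZeroDivisors hb
  have ha0 : algebraMap R F a ≠ 0 := by
    rintro h0
    rw [h0, zero_div] at hab
    exact hf hab.symm
  have hmul : f * algebraMap R F b = algebraMap R F a := by
    rw [← hab]; field_simp
  have key : ∀ ρ : F →+* LaurentSeries C,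
      (ρ f).order + (ρ (algebraMap R F b)).order = (ρ (algebraMap R F a)).order ∧
      (ρ f).leadingCoeff * (ρ (algebraMap R F b)).leadingCoeff =
        (ρ (algebraMap R F a)).leadingCoeff := by
    intro ρ
    have hρf : ρ f ≠ 0 := (map_ne_zero ρ).2 hf
    have hρb : ρ (algebraMap R F b) ≠ 0 := (map_ne_zero ρ).2 hb0
    have e : ρ f * ρ (algebraMap R F b) = ρ (algebraMap R F a) := by rw [← map_mul, hmul]
    exact ⟨by rw [← e, HahnSeries.order_mul hρf hρb], by rw [← e, HahnSeries.leadingCoeff_mul]⟩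
  obtain ⟨k1, k2⟩ := key σ
  obtain ⟨k1', k2'⟩ := key σ'
  obtain ⟨ha1, ha2⟩ := h a
  obtain ⟨hb1, hb2⟩ := h b
  have hlb : (σ (algebraMap R F b)).leadingCoeff ≠ 0 :=
    HahnSeries.leadingCoeff_ne_zero.2 ((map_ne_zero σ).2 hb0)
  have hord : (σ' f).order = (σ f).order := by
    rw [ha1, hb1] at k1'
    linarith
  refine ⟨hord, ?_⟩
  rw [ha2, hb2] at k2'
  have hzb : ζ ^ (σ (algebraMap R F b)).order ≠ 0 := zpow_ne_zero _ hζ
  have hsplit : ζ ^ (σ (algebraMap R F a)).order =
      ζ ^ (σ f).order * ζ ^ (σ (algebraMap R F b)).order := by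
    rw [← k1, zpow_add₀ hζ]
  rw [hsplit, ← k2] at k2'
  have hne : ζ ^ (σ (algebraMap R F b)).order * (σ (algebraMap R F b)).leadingCoeff ≠ 0 :=
    mul_ne_zero hzb hlb
  apply mul_right_cancel₀ hne
  rw [k2']
  ring

end Algebra

/-- **Adapter to the `LocalData` fields.** Let `F` be the fraction field of `R`, `e : R → holoRing`
a ring hom, `τ` a point fixed by `γ ∈ SL(2,ℤ)`, and `σ, σ' : F → ℂ((z))` embeddings restricting on
`R` to the Laurent expansions at `τ` of `e r`, resp. of `e r ∘ γ`. Then for all `f : F`, `σ' f` and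
`σ f` have the same order and the leading coefficient of `σ' f` is `ζ ^ order` times that of
`σ f`, where `ζ = (denom γ τ) ^ (-2)`. -/
theorem localData_perm_fields {R F : Type*} [CommRing R] [Field F] [Algebra R F]
    [IsFractionRing R F] (e : R →+* holoRing) {τ : ℍ} {γ : SL(2, ℤ)} (hfix : γ • τ = τ)
    (σ σ' : F →+* LaurentSeries ℂ)
    (hσ : ∀ r : R, σ (algebraMap R F r) = laurentAt τ (e r))
    (hσ' : ∀ r : R, σ' (algebraMap R F r) = laurentAt τ (precompSL γ (e r))) (f : F) :
    (σ' f).order = (σ f).order ∧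
      (σ' f).leadingCoeff =
        (denom (γ : GL (Fin 2) ℝ) τ ^ (-2 : ℤ)) ^ (σ f).order * (σ f).leadingCoeff := by
  have hζ : denom (γ : GL (Fin 2) ℝ) τ ^ (-2 : ℤ) ≠ 0 :=
    zpow_ne_zero _ (denom_ne_zero _ τ)
  refine order_leadingCoeff_of_isFractionRing (R := R) σ σ' hζ (fun r => ?_) f
  rw [hσ, hσ']
  exact ⟨order_laurentAt_precompSL hfix _, leadingCoeff_laurentAt_precompSL hfix _⟩

end Fermat.Agent.S24.M7.H347
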