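import Fermat.Agent.S24.M7.H347Adapter

/-!
# S24 / M7a (helper347): the elliptic fixed points `i` and `ρ`

* `S • I = I`, derivative of `S` at `i` is `(denom S i) ^ (-2) = -1`, a primitive 2nd root of 1;
* `rho = -1/2 + (√3/2) i`, `(S * T) • rho = rho`, derivative of `S * T` at `ρ` is
  `(denom (S*T) ρ) ^ (-2) = ρ ^ 2`, a primitive 3rd root of 1;
* packaged `LocalData`-shaped statements `localData_perm_fields_I`, `localData_perm_fields_rho`.
-/

set_option autoImplicit false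

open UpperHalfPlane ModularGroup
open scoped MatrixGroups

namespace Fermat.Agent.S24.M7.H347

open Fermat.Agent.S24.H624

/-- `S` fixes `i`. -/
theorem S_smul_I : S • I = I := by
  rw [modular_S_smul]
  ext
  simp [UpperHalfPlane.coe_I]

theorem denom_S_I : denom (S : GL (Fin 2) ℝ) (I : ℍ) = Complex.I := by
  rw [ModularGroup.denom_S]; simp

theorem denom_S_I_zpow : denom (S : GL (Fin 2) ℝ) (I : ℍ) ^ (-2 : ℤ) = -1 := by
  rw [denom_S_I, zpow_neg]
  norm_num

theorem isPrimitiveRoot_denom_S_I :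
    IsPrimitiveRoot (denom (S : GL (Fin 2) ℝ) (I : ℍ) ^ (-2 : ℤ)) 2 := by
  rw [denom_S_I_zpow]
  exact IsPrimitiveRoot.neg_one 0 (by norm_num)

/-- The point `ρ = e^{2πi/3} = -1/2 + (√3/2) i` of the upper half plane. -/
noncomputable def rho : ℍ :=
  UpperHalfPlane.mk ⟨-1 / 2, Real.sqrt 3 / 2⟩ (by
    show 0 < Real.sqrt 3 / 2
    positivity)

theorem coe_rho : (rho : ℂ) = ⟨-1 / 2, Real.sqrt 3 / 2⟩ := rfl

theorem rho_re : (rho : ℂ).re = -1 / 2 := rfl
theorem rho_im : (rho : ℂ).im = Real.sqrt 3 / 2 := rfl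

theorem sqrt3_sq : Real.sqrt 3 * Real.sqrt 3 = 3 := Real.mul_self_sqrt (by norm_num)

/-- `ρ² + ρ + 1 = 0`. -/
theorem rho_sq_add : (rho : ℂ) ^ 2 + (rho : ℂ) + 1 = 0 := by
  apply Complex.ext
  · simp only [pow_two, Complex.add_re, Complex.mul_re, rho_re, rho_im, Complex.one_re,
      Complex.zero_re]
    have := sqrt3_sq
    nlinarith
  · simp only [pow_two, Complex.add_im, Complex.mul_im, rho_re, rho_im, Complex.one_im,
      Complex.zero_im]
    ring

theorem ST_apply : ((S * T : SL(2, ℤ)) : Matrix (Fin 2) (Fin 2) ℤ) = !![0, -1; 1, 1] := by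
  rw [Matrix.SpecialLinearGroup.coe_mul]
  ext i j
  fin_cases i <;> fin_cases j <;> simp [S, T, Matrix.mul_apply, Fin.sum_univ_two]

theorem moeb_ST (z : ℂ) : moeb (S * T) z = -1 / (z + 1) := by
  unfold moeb
  have h := ST_apply
  have h00 : (S * T : SL(2, ℤ)) 0 0 = 0 := by
    simp
  have h01 : (S * T : SL(2, ℤ)) 0 1 = -1 := by
    simp
  have h10 : (S * T : SL(2, ℤ)) 1 0 = 1 := by
    simp
  have h11 : (S * T : SL(2, ℤ)) 1 1 = 1 := by
    simp
  rw [h00, h01, h10, h11]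
  simp

theorem rho_add_one_ne_zero : (rho : ℂ) + 1 ≠ 0 := by
  intro h
  have := congrArg Complex.im h
  simp only [Complex.add_im, rho_im, Complex.one_im, Complex.zero_im, add_zero] at this
  have h3 : (0:ℝ) < Real.sqrt 3 := by positivity
  linarith

/-- `S * T` fixes `ρ`. -/
theorem ST_smul_rho : (S * T : SL(2, ℤ)) • rho = rho := by
  apply UpperHalfPlane.ext
  rw [coe_smul_eq_moeb, moeb_ST]
  have h := rho_sq_add
  have hne := rho_add_one_ne_zero
  field_simp
  linear_combination -h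

theorem denom_ST_rho : denom ((S * T : SL(2, ℤ)) : GL (Fin 2) ℝ) (rho : ℍ) = (rho : ℂ) + 1 := by
  rw [denom_eq]
  have h := ST_apply
  have h10 : (S * T : SL(2, ℤ)) 1 0 = 1 := by
    simp
  have h11 : (S * T : SL(2, ℤ)) 1 1 = 1 := by
    simp
  rw [h10, h11]; simp

/-- The derivative of `τ ↦ (S*T) • τ` at `ρ` is `ρ⁻¹ = ρ²`. -/
theorem denom_ST_rho_zpow :
    denom ((S * T : SL(2, ℤ)) : GL (Fin 2) ℝ) (rho : ℍ) ^ (-2 : ℤ) = (rho : ℂ) ^ 2 := by
  rw [denom_ST_rho, zpow_neg]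
  have h := rho_sq_add
  have h2 : ((rho : ℂ) + 1) ^ (2 : ℤ) = ((rho : ℂ) + 1) ^ 2 := zpow_ofNat _ 2
  rw [h2]
  apply inv_eq_of_mul_eq_one_right
  linear_combination ((rho : ℂ) ^ 2 + (rho : ℂ) - 1) * h

theorem rho_ne_one : (rho : ℂ) ≠ 1 := by
  intro h
  have := congrArg Complex.re h
  simp only [rho_re, Complex.one_re] at this
  norm_num at this

theorem rho_cube : (rho : ℂ) ^ 3 = 1 := by
  have h := rho_sq_add
  linear_combination ((rho : ℂ) - 1) * h

theorem isPrimitiveRoot_rho : IsPrimitiveRoot (rho : ℂ) 3 := by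
  refine IsPrimitiveRoot.mk_of_lt _ (by norm_num) rho_cube ?_
  intro l hl0 hl3 h
  interval_cases l
  · exact rho_ne_one (by simpa using h)
  · -- ρ² = 1 and ρ³ = 1 give ρ = 1
    have h3 := rho_cube
    have : (rho : ℂ) = 1 := by
      have : (rho : ℂ) ^ 3 = (rho : ℂ) ^ 2 * rho := by ring
      rw [this, h, one_mul] at h3
      exact h3
    exact rho_ne_one this

theorem isPrimitiveRoot_denom_ST_rho :
    IsPrimitiveRoot (denom ((S * T : SL(2, ℤ)) : GL (Fin 2) ℝ) (rho : ℍ) ^ (-2 : ℤ)) 3 := by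
  rw [denom_ST_rho_zpow]
  exact isPrimitiveRoot_rho.pow_of_coprime 2 (by norm_num)


/-- `LocalData`-shaped statement at `τ₀ = i`, `γ = S`, `ζ = -1`. -/
theorem localData_perm_fields_I {R F : Type*} [CommRing R] [Field F] [Algebra R F]
    [IsFractionRing R F] (e : R →+* holoRing) (σ σ' : F →+* LaurentSeries ℂ)
    (hσ : ∀ r : R, σ (algebraMap R F r) = laurentAt I (e r))
    (hσ' : ∀ r : R, σ' (algebraMap R F r) = laurentAt I (precompSL S (e r))) (f : F) :
    (σ' f).order = (σ f).order ∧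
      (σ' f).leadingCoeff = (-1 : ℂ) ^ (σ f).order * (σ f).leadingCoeff := by
  have h := localData_perm_fields e S_smul_I σ σ' hσ hσ' f
  rwa [denom_S_I_zpow] at h

/-- `LocalData`-shaped statement at `τ₀ = ρ`, `γ = S * T`, `ζ = ρ ^ 2`. -/
theorem localData_perm_fields_rho {R F : Type*} [CommRing R] [Field F] [Algebra R F]
    [IsFractionRing R F] (e : R →+* holoRing) (σ σ' : F →+* LaurentSeries ℂ)
    (hσ : ∀ r : R, σ (algebraMap R F r) = laurentAt rho (e r))
    (hσ' : ∀ r : R, σ' (algebraMap R F r) = laurentAt rho (precompSL (S * T) (e r))) (f : F) :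
    (σ' f).order = (σ f).order ∧
      (σ' f).leadingCoeff = ((rho : ℂ) ^ 2) ^ (σ f).order * (σ f).leadingCoeff := by
  have h := localData_perm_fields e ST_smul_rho σ σ' hσ hσ' f
  rwa [denom_ST_rho_zpow] at h

theorem isPrimitiveRoot_neg_one_two : IsPrimitiveRoot (-1 : ℂ) 2 :=
  IsPrimitiveRoot.neg_one 0 (by norm_num)

theorem isPrimitiveRoot_rho_sq : IsPrimitiveRoot ((rho : ℂ) ^ 2) 3 :=
  isPrimitiveRoot_rho.pow_of_coprime 2 (by norm_num)

end Fermat.Agent.S24.M7.H347
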