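import Mathlib

/-!
# S24 / M7a (helper347): the rotation lemma in Mathlib language

If `g` is analytic at `x`, fixes `x`, and has derivative `ζ ≠ 0` there, then for *any* `f`
the meromorphic order of `f ∘ g` at `x` equals that of `f`, and the trailing (= leading Laurent)
coefficient is multiplied by `ζ ^ order`.
-/

set_option autoImplicit false

open Filter Topology

namespace Fermat.Agent.S24.M7.H347

/-- Order is preserved under composition with a local biholomorphism fixing the point. -/
theorem meromorphicOrderAt_comp_of_fixed {f g : ℂ → ℂ} {x : ℂ} (hg : AnalyticAt ℂ g x)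
    (hgx : g x = x) (hg' : deriv g x ≠ 0) :
    meromorphicOrderAt (f ∘ g) x = meromorphicOrderAt f x := by
  rw [meromorphicOrderAt_comp_of_deriv_ne_zero hg hg', hgx]

/-- `dslope g x` is analytic at `x` when `g` is. -/
theorem analyticAt_dslope_self {g : ℂ → ℂ} {x : ℂ} (hg : AnalyticAt ℂ g x) :
    AnalyticAt ℂ (dslope g x) x := by
  obtain ⟨p, hp⟩ := hg
  exact ⟨_, hp.has_fpower_series_dslope_fslope⟩

/-- The trailing coefficient is multiplied by `(g' x) ^ order` under composition with a local
biholomorphism `g` fixing the point `x`. -/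
theorem meromorphicTrailingCoeffAt_comp_of_fixed {f g : ℂ → ℂ} {x : ℂ} (hg : AnalyticAt ℂ g x)
    (hgx : g x = x) (hg' : deriv g x ≠ 0) :
    meromorphicTrailingCoeffAt (f ∘ g) x =
      deriv g x ^ (meromorphicOrderAt f x).untop₀ * meromorphicTrailingCoeffAt f x := by
  by_cases hf : MeromorphicAt f x
  swap
  · have hfg : ¬ MeromorphicAt (f ∘ g) x := by
      rw [meromorphicAt_comp_iff_of_deriv_ne_zero hg hg', hgx]; exact hf
    simp [hf, hfg]
  by_cases htop : meromorphicOrderAt f x = ⊤
  · have htop' : meromorphicOrderAt (f ∘ g) x = ⊤ := by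
      rw [meromorphicOrderAt_comp_of_fixed hg hgx hg', htop]
    have hfg : MeromorphicAt (f ∘ g) x := by
      rw [meromorphicAt_comp_iff_of_deriv_ne_zero hg hg', hgx]; exact hf
    rw [MeromorphicAt.meromorphicTrailingCoeffAt_of_order_eq_top htop',
      MeromorphicAt.meromorphicTrailingCoeffAt_of_order_eq_top htop, mul_zero]
  -- main case
  obtain ⟨F, hFan, hFne, hFev⟩ := (meromorphicOrderAt_ne_top_iff hf).1 htop
  set n : ℤ := (meromorphicOrderAt f x).untop₀ with hn
  have hFtr : meromorphicTrailingCoeffAt f x = F x :=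
    hFan.meromorphicTrailingCoeffAt_of_ne_zero_of_eq_nhdsNE hFne hFev
  -- the new analytic factor
  have hds : AnalyticAt ℂ (dslope g x) x := analyticAt_dslope_self hg
  have hdsx : dslope g x x = deriv g x := dslope_same g x
  have hds_ne : dslope g x x ≠ 0 := by rw [hdsx]; exact hg'
  have hFg : AnalyticAt ℂ (F ∘ g) x := by
    have : AnalyticAt ℂ F (g x) := by rw [hgx]; exact hFan
    exact this.comp hg
  let G : ℂ → ℂ := fun z => (dslope g x z) ^ n * F (g z)
  have hGan : AnalyticAt ℂ G x := (hds.zpow hds_ne).mul hFg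
  have hGx : G x = deriv g x ^ n * F x := by
    simp only [G, hdsx, hgx]
  have hGne : G x ≠ 0 := by
    rw [hGx]; exact mul_ne_zero (zpow_ne_zero _ hg') hFne
  have hnc : ¬ EventuallyConst g (𝓝 x) := by
    intro hc
    have : deriv g x = 0 := by
      have h1 : g =ᶠ[𝓝 x] fun _ => g x := by
        obtain ⟨c, hc⟩ := (eventuallyConst_iff_exists_eventuallyEq.1 hc)
        have hcx : g x = c := hc.eq_of_nhds
        filter_upwards [hc] with y hy
        simp only [hy, hcx]
      rw [h1.deriv_eq]; simp
    exact hg' this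
  have hmap : Tendsto g (𝓝[≠] x) (𝓝[≠] x) := by
    have := hg.map_nhdsNE hnc
    rw [hgx] at this
    exact this
  have hev : (f ∘ g) =ᶠ[𝓝[≠] x] fun z => (z - x) ^ n • G z := by
    have h1 : (f ∘ g) =ᶠ[𝓝[≠] x] fun z => (g z - x) ^ n • F (g z) := hFev.comp_tendsto hmap
    refine h1.trans ?_
    filter_upwards [self_mem_nhdsWithin] with z hz
    have hzx : z - x ≠ 0 := sub_ne_zero.2 hz
    have hsl : g z - x = (z - x) * dslope g x z := by
      have := sub_smul_dslope g x z
      simp only [smul_eq_mul] at this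
      rw [this, hgx]
    simp only [G, smul_eq_mul]
    rw [hsl, mul_zpow, mul_assoc]
  rw [hGan.meromorphicTrailingCoeffAt_of_ne_zero_of_eq_nhdsNE hGne hev, hGx, hFtr]

end Fermat.Agent.S24.M7.H347
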