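import Mathlib.RingTheory.LaurentSeries
import Mathlib.RingTheory.Localization.FractionRing

/-!
# S24 / M7 (helper47): pure algebra for Laurent-series embeddings

* `order_coe_powerSeries`, `leadingCoeff_coe_powerSeries`: order and leading coefficient of a
  power series regarded as a Laurent series.
* `order_leadingCoeff_of_subring`: the two `LocalData` axioms `σ_perm_order`,
  `σ_perm_leadingCoeff` pass from a subring `A` to its fraction field.
-/

set_option autoImplicit false

namespace Fermat.Agent.S24.M7.H47

open HahnSeries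

section PowerSeries

variable {C : Type*} [Field C]

/-- Order and leading coefficient of a Laurent series from its first nonzero coefficient. -/
theorem order_leadingCoeff_of_coeff {x : LaurentSeries C} {k : ℤ} (hk : x.coeff k ≠ 0)
    (hlt : ∀ i < k, x.coeff i = 0) : x.order = k ∧ x.leadingCoeff = x.coeff k := by
  have hx : x ≠ 0 := ne_zero_of_coeff_ne_zero hk
  have h1 : x.order ≤ k := order_le_of_coeff_ne_zero hk
  have h2 : k ≤ x.order := by
    by_contra h
    push Not at h
    have := hlt _ h
    rw [← leadingCoeff_eq] at this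
    exact hx (leadingCoeff_eq_zero.mp this)
  have h3 : x.order = k := le_antisymm h1 h2
  exact ⟨h3, by rw [leadingCoeff_eq, h3]⟩

theorem order_coe_powerSeries {p : PowerSeries C} (hp : p ≠ 0) :
    ((p : PowerSeries C) : LaurentSeries C).order = (p.order.toNat : ℤ) := by
  refine (order_leadingCoeff_of_coeff (k := (p.order.toNat : ℤ)) ?_ ?_).1
  · rw [LaurentSeries.coeff_coe_powerSeries]
    exact PowerSeries.coeff_order hp
  · intro i hi
    rw [PowerSeries.coeff_coe]
    split_ifs with h
    · rfl
    · apply PowerSeries.coeff_of_lt_order_toNat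
      omega

theorem leadingCoeff_coe_powerSeries {p : PowerSeries C} (hp : p ≠ 0) :
    ((p : PowerSeries C) : LaurentSeries C).leadingCoeff = PowerSeries.coeff p.order.toNat p := by
  have h := (order_leadingCoeff_of_coeff (x := ((p : PowerSeries C) : LaurentSeries C))
    (k := (p.order.toNat : ℤ)) ?_ ?_).2
  · rw [h, LaurentSeries.coeff_coe_powerSeries]
  · rw [LaurentSeries.coeff_coe_powerSeries]
    exact PowerSeries.coeff_order hp
  · intro i hi
    rw [PowerSeries.coeff_coe]
    split_ifs with h
    · rfl
    · apply PowerSeries.coeff_of_lt_order_toNat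
      omega

end PowerSeries

section Fractions

variable {A F C : Type*} [CommRing A] [Field F] [Algebra A F] [IsFractionRing A F] [Field C]

/-- The order/leading-coefficient relation of `LocalData` passes from a subring to its
fraction field. -/
theorem order_leadingCoeff_of_subring (σ σ' : F →+* LaurentSeries C) {ζ : C} (hζ : ζ ≠ 0)
    (h : ∀ a : A, (σ' (algebraMap A F a)).order = (σ (algebraMap A F a)).order ∧
      (σ' (algebraMap A F a)).leadingCoeff
        = ζ ^ (σ (algebraMap A F a)).order * (σ (algebraMap A F a)).leadingCoeff)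
    (f : F) :
    (σ' f).order = (σ f).order ∧
      (σ' f).leadingCoeff = ζ ^ (σ f).order * (σ f).leadingCoeff := by
  by_cases hf : f = 0
  · subst hf
    simp
  obtain ⟨a, b, hb, rfl⟩ := IsFractionRing.div_surjective (A := A) f
  have hb0 : algebraMap A F b ≠ 0 :=
    (IsLocalization.map_units F (⟨b, hb⟩ : nonZeroDivisors A)).ne_zero
  have ha0 : algebraMap A F a ≠ 0 := by
    intro h0
    apply hf
    rw [h0, zero_div]
  set x := algebraMap A F a / algebraMap A F b with hx
  have hxb : x * algebraMap A F b = algebraMap A F a := div_mul_cancel₀ _ hb0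
  have key : ∀ τ : F →+* LaurentSeries C,
      (τ (algebraMap A F a)).order = (τ x).order + (τ (algebraMap A F b)).order ∧
      (τ (algebraMap A F a)).leadingCoeff
        = (τ x).leadingCoeff * (τ (algebraMap A F b)).leadingCoeff := by
    intro τ
    have hτx : τ x ≠ 0 := (map_ne_zero τ).mpr hf
    have hτb : τ (algebraMap A F b) ≠ 0 := (map_ne_zero τ).mpr hb0
    rw [← hxb, map_mul]
    exact ⟨order_mul hτx hτb, leadingCoeff_mul _ _⟩
  obtain ⟨o1, l1⟩ := key σ
  obtain ⟨o2, l2⟩ := key σ'
  obtain ⟨hao, hal⟩ := h a
  obtain ⟨hbo, hbl⟩ := h b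
  have hσb : (σ (algebraMap A F b)).leadingCoeff ≠ 0 :=
    leadingCoeff_eq_zero.not.mpr ((map_ne_zero σ).mpr hb0)
  have ho : (σ' x).order = (σ x).order := by
    have : (σ' x).order + (σ (algebraMap A F b)).order
        = (σ x).order + (σ (algebraMap A F b)).order := by
      rw [← hbo, ← o2, hao, o1, hbo]
    exact add_right_cancel this
  refine ⟨ho, ?_⟩
  have hζb : ζ ^ (σ (algebraMap A F b)).order ≠ 0 := zpow_ne_zero _ hζ
  have h4 : (σ' x).leadingCoeff * (ζ ^ (σ (algebraMap A F b)).order
      * (σ (algebraMap A F b)).leadingCoeff)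
      = ζ ^ (σ x).order * (σ x).leadingCoeff * (ζ ^ (σ (algebraMap A F b)).order
      * (σ (algebraMap A F b)).leadingCoeff) := by
    rw [← hbl, ← l2, hal, l1, o1, zpow_add₀ hζ, hbl]
    ring
  exact mul_right_cancel₀ (mul_ne_zero hζb hσb) h4

end Fractions

end Fermat.Agent.S24.M7.H47
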