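import Fermat.Agent.S24.H624.SL2Z

/-!
# S24 / M7 (helper47): rotation lemma for Taylor coefficients

For a holomorphic `F` on `ℍ` of order `n` at a fixed point `τ` of `g`, the `n`-th Taylor
coefficient of `F ∘ g` at `τ` is `λ ^ n` times that of `F`, where `λ = det g / (c τ + d) ^ 2`
is the derivative of `g` at `τ`.  This is the `σ_perm_leadingCoeff` field of `LocalData`.
-/

set_option autoImplicit false

namespace Fermat.Agent.S24.M7.H47

open UpperHalfPlane Complex Fermat.Agent.S24.H624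
open scoped Manifold Topology MatrixGroups

/-- **Bridge.** If `f = (z - z₀) ^ n * u` near `z₀` with `u` analytic at `z₀`, then the `n`-th
Taylor coefficient of `f` at `z₀` is `u z₀`. -/
theorem iteratedDeriv_eq_of_eventuallyEq_pow_mul {f u : ℂ → ℂ} {z₀ : ℂ} {n : ℕ}
    (hu : AnalyticAt ℂ u z₀) (hf : ∀ᶠ z in 𝓝 z₀, f z = (z - z₀) ^ n * u z) :
    iteratedDeriv n f z₀ = (n.factorial : ℂ) * u z₀ := by
  have h1 : iteratedDeriv n f z₀ = iteratedDeriv n ((fun z ↦ (z - z₀) ^ n) * u) z₀ :=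
    Filter.EventuallyEq.iteratedDeriv_eq n hf
  have hp : ContDiffAt ℂ n (fun z : ℂ ↦ (z - z₀) ^ n) z₀ := by fun_prop
  have hu' : ContDiffAt ℂ n u z₀ := hu.contDiffAt.of_le (by exact_mod_cast le_top)
  rw [h1, iteratedDeriv_mul hp hu']
  have hpow : ∀ i : ℕ, iteratedDeriv i (fun z : ℂ ↦ (z - z₀) ^ n) z₀
      = if i = n then (n.factorial : ℂ) else 0 := by
    intro i
    have := congrFun (iteratedDeriv_comp_sub_const i (fun z : ℂ ↦ z ^ n) z₀) z₀
    simp only [sub_self] at this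
    rw [this, iteratedDeriv_fun_pow_zero (𝕜 := ℂ)]
    split_ifs <;> simp
  rw [Finset.sum_eq_single n]
  · simp [hpow]
  · intro i _ hi
    simp [hpow, hi]
  · intro h
    simp at h

/-- Taylor coefficient from a local factorisation. -/
theorem taylorCoeff_eq_of_eventuallyEq {F : ℍ → ℂ} {u : ℂ → ℂ} {τ : ℍ} {n : ℕ}
    (hu : AnalyticAt ℂ u (τ : ℂ))
    (hf : ∀ᶠ z in 𝓝 (τ : ℂ), (F ∘ ofComplex) z = (z - (τ : ℂ)) ^ n * u z) :
    taylorCoeff τ F n = u (τ : ℂ) := by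
  unfold taylorCoeff
  rw [iteratedDeriv_eq_of_eventuallyEq_pow_mul hu hf]
  have hn : (n.factorial : ℂ) ≠ 0 := by exact_mod_cast (Nat.factorial_pos n).ne'
  field_simp

/-- **Rotation lemma (leading-coefficient form).** -/
theorem taylorCoeff_comp_smul_of_fixed {g : GL (Fin 2) ℝ} (hg : 0 < g.det.val) {F : ℍ → ℂ}
    (hF : MDiff F) {τ : ℍ} (hτ : g • τ = τ) {n : ℕ} (hn : ordAt τ F = n) :
    taylorCoeff τ (fun z : ℍ ↦ F (g • z)) n
      = (((g.det.val : ℝ) : ℂ) / denom g (τ : ℂ) ^ 2) ^ n * taylorCoeff τ F n := by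
  obtain ⟨u, hu, -, hfu⟩ :=
    ((analyticAt_of_mdiff hF τ).analyticOrderAt_eq_natCast).mp (by rw [← ordAt_def]; exact hn)
  have hd : denom g (τ : ℂ) ≠ 0 := denom_ne_zero g τ
  have hmτ : moeb g (τ : ℂ) = (τ : ℂ) := by rw [moeb_coe hg, hτ]
  have hman : AnalyticAt ℂ (moeb g) (τ : ℂ) := analyticAt_moeb g hd
  have hmcont : ContinuousAt (moeb g) (τ : ℂ) := hman.continuousAt
  set c : ℂ := ((g.det.val : ℝ) : ℂ) with hc
  have hfu' : ∀ᶠ z in 𝓝 (τ : ℂ), (F ∘ ofComplex) z = (z - (τ : ℂ)) ^ n * u z := by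
    filter_upwards [hfu] with z hz
    simpa [smul_eq_mul] using hz
  -- Taylor coefficient of `F`
  have hF_coeff : taylorCoeff τ F n = u (τ : ℂ) := taylorCoeff_eq_of_eventuallyEq hu hfu'
  -- local factorisation of `F ∘ g`
  set v : ℂ → ℂ := fun z ↦ (c / (denom g z * denom g (τ : ℂ))) ^ n * u (moeb g z) with hv
  have hden_an : AnalyticAt ℂ (denom g) (τ : ℂ) := by
    have : denom g = fun w : ℂ => ((g 1 0 : ℝ) : ℂ) * w + ((g 1 1 : ℝ) : ℂ) := by
      funext w; simp [denom]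
    rw [this]
    fun_prop
  have hv_an : AnalyticAt ℂ v (τ : ℂ) := by
    have h1 : AnalyticAt ℂ (fun z ↦ c / (denom g z * denom g (τ : ℂ))) (τ : ℂ) :=
      analyticAt_const.div (hden_an.mul analyticAt_const) (mul_ne_zero hd hd)
    have h2 : AnalyticAt ℂ (fun z ↦ u (moeb g z)) (τ : ℂ) := by
      have hu2 : AnalyticAt ℂ u (moeb g (τ : ℂ)) := by rw [hmτ]; exact hu
      exact hu2.comp hman
    exact (h1.pow n).mul h2
  have h3 : ∀ᶠ z in 𝓝 (τ : ℂ), denom g z ≠ 0 :=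
    (hasDerivAt_denom g _).continuousAt.eventually_ne hd
  have h2 : ∀ᶠ z in 𝓝 (τ : ℂ), (F ∘ ofComplex) (moeb g z)
      = (moeb g z - (τ : ℂ)) ^ n * u (moeb g z) := by
    have : Filter.Tendsto (moeb g) (𝓝 (τ : ℂ)) (𝓝 (τ : ℂ)) := by
      have := hmcont.tendsto
      rwa [hmτ] at this
    exact this.eventually hfu'
  have hfact : ∀ᶠ z in 𝓝 (τ : ℂ),
      ((fun z : ℍ ↦ F (g • z)) ∘ ofComplex) z = (z - (τ : ℂ)) ^ n * v z := by
    filter_upwards [eventuallyEq_comp_smul hg F τ, h2, h3] with z e1 e2 e3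
    rw [e1]
    simp only [Function.comp_apply] at e2 ⊢
    rw [e2]
    have e5 : moeb g z - (τ : ℂ) = c * (z - (τ : ℂ)) / (denom g z * denom g (τ : ℂ)) := by
      have := moeb_sub_moeb g e3 hd
      rwa [hmτ] at this
    rw [e5, hv]
    simp only
    rw [show c * (z - (τ : ℂ)) / (denom g z * denom g (τ : ℂ))
        = (z - (τ : ℂ)) * (c / (denom g z * denom g (τ : ℂ))) by ring, mul_pow, mul_assoc]
  rw [taylorCoeff_eq_of_eventuallyEq hv_an hfact, hF_coeff, hv]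
  simp only [hmτ]
  rw [sq]

/-- Rotation lemma for `SL(2, ℤ)` acting on `holoRing` (`(s • f) τ = f (s⁻¹ • τ)`). -/
theorem taylorCoeff_smul_of_fixed {s : SL(2, ℤ)} {τ : ℍ} (hτ : s • τ = τ) (f : holoRing)
    {n : ℕ} (hn : ordAt τ (f : ℍ → ℂ) = n) :
    taylorCoeff τ ((s • f : holoRing) : ℍ → ℂ) n
      = ((denom ((s⁻¹ : SL(2, ℤ)) : GL (Fin 2) ℝ) (τ : ℂ) ^ 2)⁻¹) ^ n
        * taylorCoeff τ (f : ℍ → ℂ) n := by
  have hτ' : ((s⁻¹ : SL(2, ℤ)) : GL (Fin 2) ℝ) • τ = τ := by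
    have : (s⁻¹ : SL(2, ℤ)) • τ = τ := by
      conv_lhs => rw [← hτ]
      exact inv_smul_smul s τ
    exact this
  have h := taylorCoeff_comp_smul_of_fixed (g := ((s⁻¹ : SL(2, ℤ)) : GL (Fin 2) ℝ))
    (det_coe_SL_pos s⁻¹) f.2 hτ' hn
  rw [det_coe_SL s⁻¹, Complex.ofReal_one, one_div] at h
  exact h

end Fermat.Agent.S24.M7.H47
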