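import Fermat.Agent.S24.Defs
import Fermat.Agent.S24.Mod.FracRing
import Fermat.Agent.S24.M7.H47Level1
import Fermat.Agent.S24.M7.H47Rotation
import Fermat.Agent.S24.M7.H47Lift

/-!
# S24 / M7 (helper47): `LocalData` at the finite points of the `j`-line

Input: an analytic realisation `ev : R → holoRing` of `R = ℚ̄[j(q^d) : d ∣ N]`
(`EvInput`, to be supplied by M4/M5).  Output: `exists_dataFin`, the `dataFin`, `perm_generic`,
`orbits_zero`, `orbits_1728` fields of `ModularPackage`.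
-/

set_option autoImplicit false

noncomputable section

namespace Fermat.Agent.S24.M7.H47

open UpperHalfPlane Complex ModularCurve AlgebraicCurve ModularForm EisensteinSeries
open Fermat.Agent.S24 Fermat.Agent.S24.H624 Fermat.Agent.S20.L1
open scoped Manifold Topology MatrixGroups

variable (N : ℕ) [NeZero N]

theorem jF_mem_R : jF N ∈ Emb.R N := by
  apply Algebra.subset_adjoin
  show ((jF N : FF N) : LaurentSeries Kbar) ∈ Emb.genSet N
  refine ⟨jq, ?_, rfl⟩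
  have h := mem_divisorExpansions N (one_dvd N)
  rwa [qExpand_one_apply] at h

/-- `j` as an element of `R`. -/
def jR : Emb.R N := ⟨jF N, jF_mem_R N⟩

@[simp] theorem algebraMap_jR : algebraMap (Emb.R N) (FF N) (jR N) = jF N := rfl

/-- The analytic realisation of `R = ℚ̄[j(q^d) : d ∣ N]` (output of M4/M5). -/
structure EvInput where
  /-- the chosen embedding `ℚ̄ → ℂ` -/
  ι : Kbar →+* ℂ
  /-- evaluation of formal `q`-series as holomorphic functions -/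
  ev : Emb.R N →+* holoRing
  ev_algebraMap : ∀ c : Kbar,
    ev (algebraMap Kbar (Emb.R N) c) = algebraMap ℂ holoRing (ι c)
  ev_injective : Function.Injective ev
  ev_j : ∀ τ : ℍ, (ev (jR N) : ℍ → ℂ) τ = jFun τ
  ev_invariant : ∀ γ ∈ CongruenceSubgroup.Gamma0 N, ∀ r : Emb.R N, γ • ev r = ev r
  ev_separates : ∀ g : SL(2, ℤ), (∀ r : Emb.R N, g • ev r = ev r) →
    g ∈ CongruenceSubgroup.Gamma0 N

variable {N}

namespace EvInput

variable (E : EvInput N) (τ₀ : ℍ)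

/-- Taylor expansion at `τ₀` of `(ev r) ∘ g⁻¹`, as a Laurent series. -/
def sigmaR (g : SL(2, ℤ)) : Emb.R N →+* LaurentSeries ℂ :=
  (HahnSeries.ofPowerSeries ℤ ℂ).comp
    ((taylorAt τ₀).toRingHom.comp ((MulSemiringAction.toRingHom SL(2, ℤ) holoRing g).comp E.ev))

theorem sigmaR_apply (g : SL(2, ℤ)) (r : Emb.R N) :
    E.sigmaR τ₀ g r = HahnSeries.ofPowerSeries ℤ ℂ (taylorAt τ₀ (g • E.ev r)) := rfl

theorem sigmaR_injective (g : SL(2, ℤ)) : Function.Injective (E.sigmaR τ₀ g) := by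
  intro r r' h
  rw [sigmaR_apply, sigmaR_apply] at h
  have h1 := taylorAt_injective τ₀ (HahnSeries.ofPowerSeries_injective h)
  exact E.ev_injective (MulAction.injective g h1)

/-- The embedding `F → ℂ((z))` attached to `g` and the point `τ₀`. -/
def sigmaF (g : SL(2, ℤ)) : FF N →+* LaurentSeries ℂ :=
  IsFractionRing.lift (E.sigmaR_injective τ₀ g)

@[simp]
theorem sigmaF_algebraMap (g : SL(2, ℤ)) (r : Emb.R N) :
    E.sigmaF τ₀ g (algebraMap (Emb.R N) (FF N) r) = E.sigmaR τ₀ g r :=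
  IsFractionRing.lift_algebraMap _ _

theorem sigmaR_mul_of_mem (g γ : SL(2, ℤ)) (hγ : γ ∈ CongruenceSubgroup.Gamma0 N) :
    E.sigmaR τ₀ (g * γ) = E.sigmaR τ₀ g := by
  ext1 r
  rw [sigmaR_apply, sigmaR_apply, mul_smul, E.ev_invariant γ hγ]

theorem sigmaF_mul_of_mem (g γ : SL(2, ℤ)) (hγ : γ ∈ CongruenceSubgroup.Gamma0 N) :
    E.sigmaF τ₀ (g * γ) = E.sigmaF τ₀ g := by
  apply IsLocalization.ringHom_ext (nonZeroDivisors (Emb.R N))
  ext1 r
  simp only [RingHom.comp_apply, sigmaF_algebraMap]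
  rw [E.sigmaR_mul_of_mem τ₀ g γ hγ]

theorem sigmaF_out (g : SL(2, ℤ)) :
    E.sigmaF τ₀ (QuotientGroup.mk g : XX N).out = E.sigmaF τ₀ g := by
  obtain ⟨γ, hγ⟩ := QuotientGroup.mk_out_eq_mul (CongruenceSubgroup.Gamma0 N) g
  rw [hγ]
  exact E.sigmaF_mul_of_mem τ₀ g γ γ.2

theorem mk_eq_of_sigmaF_eq {g g' : SL(2, ℤ)} (h : E.sigmaF τ₀ g = E.sigmaF τ₀ g') :
    (QuotientGroup.mk g : XX N) = QuotientGroup.mk g' := by
  rw [QuotientGroup.eq]
  apply E.ev_separates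
  intro r
  have h1 : E.sigmaR τ₀ g r = E.sigmaR τ₀ g' r := by
    rw [← sigmaF_algebraMap, ← sigmaF_algebraMap, h]
  rw [sigmaR_apply, sigmaR_apply] at h1
  have h2 : g • E.ev r = g' • E.ev r :=
    taylorAt_injective τ₀ (HahnSeries.ofPowerSeries_injective h1)
  rw [mul_smul, ← h2, inv_smul_smul]


/-! ### The local parameter `j - a` -/

/-- The element `j - a` of `R`. -/
def tR (N : ℕ) [NeZero N] (a : Kbar) : Emb.R N := jR N - algebraMap Kbar (Emb.R N) a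

theorem algebraMap_tR (a : Kbar) :
    algebraMap (Emb.R N) (FF N) (tR N a) = jF N - algebraMap Kbar (FF N) a := by
  rw [tR, map_sub, algebraMap_jR, ← IsScalarTower.algebraMap_apply]

theorem smul_ev_jR (g : SL(2, ℤ)) : g • E.ev (jR N) = E.ev (jR N) := by
  ext τ
  rw [smul_holoRing_apply, E.ev_j, E.ev_j, Fermat.Agent.S24.M7.H47.jFun_smul]

theorem smul_algebraMap_holoRing (g : SL(2, ℤ)) (c : ℂ) :
    g • (algebraMap ℂ holoRing c) = algebraMap ℂ holoRing c := by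
  ext τ
  rfl

theorem smul_ev_tR (g : SL(2, ℤ)) (a : Kbar) : g • E.ev (tR N a) = E.ev (tR N a) := by
  rw [tR, map_sub, smul_sub, E.smul_ev_jR, E.ev_algebraMap, smul_algebraMap_holoRing]

theorem ev_tR_apply (a : Kbar) (τ : ℍ) : (E.ev (tR N a) : ℍ → ℂ) τ = jFun τ - E.ι a := by
  rw [tR, map_sub, E.ev_algebraMap]
  show (E.ev (jR N) : ℍ → ℂ) τ - _ = _
  rw [E.ev_j]
  rfl

theorem sigmaR_tR (g : SL(2, ℤ)) (a : Kbar) :
    E.sigmaR τ₀ g (tR N a) = HahnSeries.ofPowerSeries ℤ ℂ (taylorAt τ₀ (E.ev (tR N a))) := by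
  rw [sigmaR_apply, E.smul_ev_tR]

theorem ordAt_ev_tR {a : Kbar} (hτ₀ : jFun τ₀ = E.ι a) {m : ℕ}
    (hord : analyticOrderAt (fun w : ℂ ↦ jFun (ofComplex w) - jFun τ₀) (τ₀ : ℂ) = m) :
    ordAt τ₀ (E.ev (tR N a) : ℍ → ℂ) = m := by
  rw [ordAt_def, ← hord]
  congr 1
  funext w
  simp only [Function.comp_apply]
  rw [E.ev_tR_apply, hτ₀]

theorem ev_tR_ne_zero {a : Kbar} (hτ₀ : jFun τ₀ = E.ι a) {m : ℕ}
    (hord : analyticOrderAt (fun w : ℂ ↦ jFun (ofComplex w) - jFun τ₀) (τ₀ : ℂ) = m) :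
    E.ev (tR N a) ≠ 0 := by
  intro h
  have h1 := E.ordAt_ev_tR τ₀ hτ₀ hord
  rw [h] at h1
  have h2 : ordAt τ₀ ((0 : holoRing) : ℍ → ℂ) = ⊤ := ordAt_zero τ₀
  rw [h2] at h1
  exact ENat.top_ne_natCast m h1

/-! ### Rotation on Laurent series -/

theorem rotation_laurent {s : SL(2, ℤ)} (hs : s • τ₀ = τ₀) (h : holoRing) :
    (HahnSeries.ofPowerSeries ℤ ℂ (taylorAt τ₀ (s • h))).order
        = (HahnSeries.ofPowerSeries ℤ ℂ (taylorAt τ₀ h)).order ∧
      (HahnSeries.ofPowerSeries ℤ ℂ (taylorAt τ₀ (s • h))).leadingCoeff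
        = ((denom ((s⁻¹ : SL(2, ℤ)) : GL (Fin 2) ℝ) (τ₀ : ℂ) ^ 2)⁻¹)
            ^ (HahnSeries.ofPowerSeries ℤ ℂ (taylorAt τ₀ h)).order
          * (HahnSeries.ofPowerSeries ℤ ℂ (taylorAt τ₀ h)).leadingCoeff := by
  by_cases h0 : h = 0
  · subst h0
    simp
  have hp : taylorAt τ₀ h ≠ 0 := fun hh ↦ h0 (taylorAt_injective τ₀ (by rw [hh, map_zero]))
  have hs0 : s • h ≠ 0 := fun hh ↦ h0 (MulAction.injective s (hh.trans (smul_zero s).symm))
  have hp' : taylorAt τ₀ (s • h) ≠ 0 :=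
    fun hh ↦ hs0 (taylorAt_injective τ₀ (by rw [hh, map_zero]))
  have hord : (taylorAt τ₀ (s • h)).order = (taylorAt τ₀ h).order := by
    rw [order_taylorAt, order_taylorAt]
    have := ordAt_smul_holoRing s h τ₀
    rwa [hs] at this
  set n := (taylorAt τ₀ h).order.toNat with hn
  have hnord : ordAt τ₀ (h : ℍ → ℂ) = n := by
    rw [← order_taylorAt, hn, ENat.natCast_toNat]
    exact fun htop ↦ hp (PowerSeries.order_eq_top.mp htop)
  have e1 := order_coe_powerSeries hp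
  have e2 := order_coe_powerSeries hp'
  have l1 := leadingCoeff_coe_powerSeries hp
  have l2 := leadingCoeff_coe_powerSeries hp'
  rw [hord] at e2 l2
  change (HahnSeries.ofPowerSeries ℤ ℂ (taylorAt τ₀ h)).order = _ at e1
  change (HahnSeries.ofPowerSeries ℤ ℂ (taylorAt τ₀ (s • h))).order = _ at e2
  change (HahnSeries.ofPowerSeries ℤ ℂ (taylorAt τ₀ h)).leadingCoeff = _ at l1
  change (HahnSeries.ofPowerSeries ℤ ℂ (taylorAt τ₀ (s • h))).leadingCoeff = _ at l2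
  refine ⟨by rw [e1, e2], ?_⟩
  rw [l1, l2, e1, zpow_natCast, coeff_taylorAt, coeff_taylorAt]
  exact taylorCoeff_smul_of_fixed hs h hnord


/-! ### The `LocalData` -/

theorem sigmaF_perm (s : SL(2, ℤ)) (x : XX N) :
    E.sigmaF τ₀ (permOf N s x).out = E.sigmaF τ₀ (s * x.out) := by
  have hx : permOf N s x = (QuotientGroup.mk (s * x.out) : XX N) := by
    conv_lhs => rw [← QuotientGroup.out_eq' x]
    rfl
  rw [hx, sigmaF_out]

theorem sigmaF_const (g : SL(2, ℤ)) (c : Kbar) :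
    E.sigmaF τ₀ g (algebraMap Kbar (FF N) c) = HahnSeries.C (E.ι c) := by
  rw [IsScalarTower.algebraMap_apply Kbar (Emb.R N) (FF N), sigmaF_algebraMap, sigmaR_apply,
    E.ev_algebraMap, smul_algebraMap_holoRing, AlgHom.commutes]
  exact HahnSeries.ofPowerSeries_C _

theorem sigmaF_t (g : SL(2, ℤ)) (a : Kbar) :
    E.sigmaF τ₀ g (jF N - algebraMap Kbar (FF N) a)
      = HahnSeries.ofPowerSeries ℤ ℂ (taylorAt τ₀ (E.ev (tR N a))) := by
  rw [← algebraMap_tR, sigmaF_algebraMap, sigmaR_tR]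

/-- `LocalData` at the zero `τ₀` of `j - ι a`, with monodromy `s` fixing `τ₀`. -/
def localData (a : Kbar) (hτ₀ : jFun τ₀ = E.ι a) (s : SL(2, ℤ)) (hs : s • τ₀ = τ₀)
    (m : ℕ) (hm : 0 < m)
    (hord : analyticOrderAt (fun w : ℂ ↦ jFun (ofComplex w) - jFun τ₀) (τ₀ : ℂ) = m)
    (hζ : IsPrimitiveRoot ((denom ((s⁻¹ : SL(2, ℤ)) : GL (Fin 2) ℝ) (τ₀ : ℂ) ^ 2)⁻¹) m) :
    LocalData Kbar (FF N) ℂ (XX N) (jF N - algebraMap Kbar (FF N) a) where
  m := m
  m_pos := hm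
  ζ := (denom ((s⁻¹ : SL(2, ℤ)) : GL (Fin 2) ℝ) (τ₀ : ℂ) ^ 2)⁻¹
  hζ := hζ
  ι := E.ι
  perm := permOf N s
  σ := fun x ↦ E.sigmaF τ₀ x.out
  σ_inj := by
    intro x y h
    have := E.mk_eq_of_sigmaF_eq τ₀ h
    rwa [QuotientGroup.out_eq', QuotientGroup.out_eq'] at this
  σ_const := fun x c ↦ E.sigmaF_const τ₀ x.out c
  σ_t_eq := fun x y ↦ by rw [E.sigmaF_t, E.sigmaF_t]
  σ_t_order := fun x ↦ by
    rw [E.sigmaF_t]
    have hne : taylorAt τ₀ (E.ev (tR N a)) ≠ 0 := fun hh ↦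
      E.ev_tR_ne_zero τ₀ hτ₀ hord (taylorAt_injective τ₀ (by rw [hh, map_zero]))
    have h1 := order_coe_powerSeries hne
    change (HahnSeries.ofPowerSeries ℤ ℂ (taylorAt τ₀ (E.ev (tR N a)))).order = _ at h1
    rw [h1, order_taylorAt, E.ordAt_ev_tR τ₀ hτ₀ hord]
    rfl
  σ_perm_order := fun x f ↦ by
    refine (order_leadingCoeff_of_subring (A := Emb.R N) (E.sigmaF τ₀ x.out)
      (E.sigmaF τ₀ (permOf N s x).out) (hζ.ne_zero hm.ne') (fun r ↦ ?_) f).1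
    rw [E.sigmaF_perm, sigmaF_algebraMap, sigmaF_algebraMap, sigmaR_apply, sigmaR_apply, mul_smul]
    exact rotation_laurent τ₀ hs _
  σ_perm_leadingCoeff := fun x f ↦ by
    refine (order_leadingCoeff_of_subring (A := Emb.R N) (E.sigmaF τ₀ x.out)
      (E.sigmaF τ₀ (permOf N s x).out) (hζ.ne_zero hm.ne') (fun r ↦ ?_) f).2
    rw [E.sigmaF_perm, sigmaF_algebraMap, sigmaF_algebraMap, sigmaR_apply, sigmaR_apply, mul_smul]
    exact rotation_laurent τ₀ hs _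

@[simp]
theorem localData_perm (a : Kbar) (hτ₀ : jFun τ₀ = E.ι a) (s : SL(2, ℤ)) (hs : s • τ₀ = τ₀)
    (m : ℕ) (hm : 0 < m)
    (hord : analyticOrderAt (fun w : ℂ ↦ jFun (ofComplex w) - jFun τ₀) (τ₀ : ℂ) = m)
    (hζ : IsPrimitiveRoot ((denom ((s⁻¹ : SL(2, ℤ)) : GL (Fin 2) ℝ) (τ₀ : ℂ) ^ 2)⁻¹) m) :
    (E.localData τ₀ a hτ₀ s hs m hm hord hζ).perm = permOf N s := rfl


end EvInput

/-! ### The three kinds of points -/

theorem isPrimitiveRoot_one_point (τ : ℍ) :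
    IsPrimitiveRoot ((denom (((1 : SL(2, ℤ))⁻¹ : SL(2, ℤ)) : GL (Fin 2) ℝ) (τ : ℂ) ^ 2)⁻¹) 1 := by
  have h : denom (((1 : SL(2, ℤ))⁻¹ : SL(2, ℤ)) : GL (Fin 2) ℝ) (τ : ℂ) = 1 := by
    rw [inv_one, ModularGroup.denom_apply]
    simp
  rw [h]
  simp

theorem isPrimitiveRoot_S_point :
    IsPrimitiveRoot ((denom ((ModularGroup.S⁻¹ : SL(2, ℤ)) : GL (Fin 2) ℝ)
      ((UpperHalfPlane.I : ℍ) : ℂ) ^ 2)⁻¹) 2 := by
  have h : denom ((ModularGroup.S⁻¹ : SL(2, ℤ)) : GL (Fin 2) ℝ) ((UpperHalfPlane.I : ℍ) : ℂ)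
      = -Complex.I := by
    rw [ModularGroup.denom_apply]
    simp [ModularGroup.S, Matrix.SpecialLinearGroup.coe_inv, Matrix.adjugate_fin_two]
  rw [h]
  have h2 : ((-Complex.I) ^ 2)⁻¹ = (-1 : ℂ) := by
    rw [neg_sq, Complex.I_sq]
    norm_num
  rw [h2]
  exact IsPrimitiveRoot.neg_one 0 (by norm_num)

theorem isPrimitiveRoot_ST_point :
    IsPrimitiveRoot ((denom (((ModularGroup.S * ModularGroup.T)⁻¹ : SL(2, ℤ)) : GL (Fin 2) ℝ)
      ((rho : ℍ) : ℂ) ^ 2)⁻¹) 3 := by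
  have h : denom (((ModularGroup.S * ModularGroup.T)⁻¹ : SL(2, ℤ)) : GL (Fin 2) ℝ)
      ((rho : ℍ) : ℂ) = -(rho : ℂ) := by
    rw [ModularGroup.denom_apply]
    simp [ModularGroup.S, ModularGroup.T, Matrix.SpecialLinearGroup.coe_inv,
      Matrix.adjugate_fin_two, Matrix.mul_apply, Fin.sum_univ_two]
  rw [h]
  have hr := rho_sq_add
  have h3 : (rho : ℂ) ^ 3 = 1 := by linear_combination ((rho : ℂ) - 1) * hr
  have hne : (rho : ℂ) ≠ 0 := by
    intro h0
    rw [h0] at hr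
    norm_num at hr
  have h2 : ((-(rho : ℂ)) ^ 2)⁻¹ = (rho : ℂ) := by
    rw [neg_sq, inv_eq_iff_eq_inv]
    field_simp
    linear_combination h3
  rw [h2]
  refine IsPrimitiveRoot.mk_of_lt _ (by norm_num) h3 ?_
  intro l hl0 hl3
  interval_cases l
  · rw [pow_one]
    intro h1
    rw [h1] at hr
    norm_num at hr
  · intro h1
    have : (rho : ℂ) = -2 := by linear_combination hr - h1
    rw [this] at h1
    norm_num at h1

theorem permOf_one (N : ℕ) [NeZero N] : permOf N 1 = 1 := by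
  ext x
  simp [permOf]

/-- **M7.** Local data at every finite point `a` of the `j`-line, with the monodromy
permutations of the elliptic elements. -/
theorem exists_dataFin (E : EvInput N) (a : Kbar) :
    ∃ L : LocalData Kbar (FF N) ℂ (XX N) (jF N - algebraMap Kbar (FF N) a),
      (a ≠ 0 → a ≠ 1728 → L.perm = 1) ∧
      (a = 0 → L.perm = permOf N (ModularGroup.S * ModularGroup.T)) ∧
      (a = 1728 → L.perm = permOf N ModularGroup.S) := by
  have h1728 : (1728 : Kbar) ≠ 0 := by norm_num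
  by_cases h0 : a = 0
  · subst h0
    refine ⟨E.localData rho 0 (by rw [jFun_rho, map_zero]) _ ST_smul_rho 3 (by norm_num)
      (analyticOrderAt_jFun_sub_of_E₄ E₄_rho) isPrimitiveRoot_ST_point, ?_, fun _ ↦ rfl, ?_⟩
    · intro h; exact absurd rfl h
    · intro h; exact absurd h.symm h1728
  by_cases h1 : a = 1728
  · subst h1
    refine ⟨E.localData UpperHalfPlane.I 1728 (by rw [jFun_I, map_ofNat]) _ S_smul_I 2
      (by norm_num) (analyticOrderAt_jFun_sub_of_E₆ E₆_I) isPrimitiveRoot_S_point,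
      ?_, ?_, fun _ ↦ rfl⟩
    · intro _ h; exact absurd rfl h
    · intro h; exact absurd h h1728
  obtain ⟨τ₀, hτ₀⟩ := jFun_surjective (E.ι a)
  have h4 : E₄ τ₀ ≠ 0 := by
    intro h
    have : E.ι a = 0 := by rw [← hτ₀]; exact (jFun_eq_zero_iff τ₀).mpr h
    exact h0 ((map_eq_zero E.ι).mp this)
  have h6 : E₆ τ₀ ≠ 0 := by
    intro h
    have : E.ι a = E.ι 1728 := by
      rw [← hτ₀, map_ofNat]; exact (jFun_eq_1728_iff τ₀).mpr h
    exact h1 (E.ι.injective this)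
  refine ⟨E.localData τ₀ a hτ₀ 1 (one_smul _ _) 1 one_pos
    (by exact_mod_cast analyticOrderAt_jFun_sub_generic h4 h6) (isPrimitiveRoot_one_point τ₀),
    fun _ _ ↦ ?_, fun h ↦ absurd h h0, fun h ↦ absurd h h1⟩
  rw [EvInput.localData_perm, permOf_one]

/-- **M7, packaged** in the shape of the `ModularPackage` fields `dataFin`, `perm_generic`,
`orbits_zero`, `orbits_1728`. -/
theorem exists_dataFin_family (E : EvInput N) :
    ∃ dataFin : ∀ a : Kbar, LocalData Kbar (FF N) ℂ (XX N) (jF N - algebraMap Kbar (FF N) a),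
      (∀ a : Kbar, a ≠ 0 → a ≠ 1728 → (dataFin a).perm = 1) ∧
      numOrbits (dataFin 0).perm = numOrbits (permOf N (ModularGroup.S * ModularGroup.T)) ∧
      numOrbits (dataFin 1728).perm = numOrbits (permOf N ModularGroup.S) := by
  choose L hL using fun a : Kbar ↦ exists_dataFin E a
  exact ⟨L, fun a h0 h1 ↦ (hL a).1 h0 h1, by rw [(hL 0).2.1 rfl], by rw [(hL 1728).2.2 rfl]⟩

end Fermat.Agent.S24.M7.H47
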